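import Fermat.Agent.S48.HK.Hecke
import Fermat.Prelude.Def_GaloisRep_Residual
import Fermat.Prelude.Def_Deformations_MatrixRepresentation

/-!
# S48 (Deligne-Serre): top level definitions and contracts

Blueprint: `select plan from projects where name='S48'`.
Everything in this file is a definition (`Prop`-valued contracts `Stmt*`), there is no `sorry`.
`Final/*.lean` proves the frozen statement S48 from the contracts
`StmtAlg`, `StmtCheb`, `StmtWT1`, `StmtModL2` and the landed blocks RANKIN, GRP, LIFT, HK.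
-/

set_option autoImplicit false

open CongruenceSubgroup UpperHalfPlane ModularFormClass Polynomial
open scoped MatrixGroups ModularForm

noncomputable section

namespace Fermat.Agent.S48

/-- The absolute Galois group of `ℚ`. -/
abbrev GQ : Type := AlgebraicClosure ℚ ≃ₐ[ℚ] AlgebraicClosure ℚ

/-- The ring of all algebraic integers in `ℂ`. -/
abbrev Zbar : Type := integralClosure ℤ ℂ

/-! ### Weight one data -/

/-- The hypotheses of S48. -/
structure W1Data (N : ℕ) [NeZero N] where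
  ε : DirichletCharacter ℂ N
  f : CuspForm (Gamma1 N) 1
  one : qCoeff f 1 = 1
  hecke : ∀ p : ℕ, p.Prime → ¬ p ∣ N → ∀ n : ℕ,
    qCoeff f (p * n) + ε (p : ZMod N) * (if p ∣ n then qCoeff f (n / p) else 0) =
      qCoeff f p * qCoeff f n

/-- Good weight one data: integral coefficients in a number field, nebentypus `ε`, and all
conjugates are again weight one data. -/
structure W1Data.Good {N : ℕ} [NeZero N] (D : W1Data N) : Prop where
  integral : ∀ n : ℕ, IsIntegral ℤ (qCoeff D.f n)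
  field : ∃ L : IntermediateField ℚ ℂ, FiniteDimensional ℚ L ∧ ∀ n : ℕ, qCoeff D.f n ∈ L
  neben : ∀ γ : SL(2, ℤ), γ ∈ Gamma0 N →
    (D.f : ℍ → ℂ) ∣[(1 : ℤ)] γ = D.ε (((γ 1 1 : ℤ) : ZMod N)) • (D.f : ℍ → ℂ)
  conj : ∀ σ : ℂ →+* ℂ, ∃ D' : W1Data N, ∀ n : ℕ, qCoeff D'.f n = σ (qCoeff D.f n)

/-- **Contract ALG**: one may replace the data by good data of a level with the same prime
divisors, without changing `a_p` and `ε(p)` for `p ∤ N`. -/
def StmtAlg : Prop :=
  ∀ (N : ℕ) [NeZero N] (D : W1Data N),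
    ∃ (N' : ℕ) (_ : NeZero N') (D' : W1Data N'), D'.Good ∧
      (∀ p : ℕ, p.Prime → (p ∣ N' ↔ p ∣ N)) ∧
      ∀ p : ℕ, p.Prime → ¬ p ∣ N →
        qCoeff D'.f p = qCoeff D.f p ∧ D'.ε (p : ZMod N') = D.ε (p : ZMod N)

/-! ### Chebotarev -/

/-- **Contract CHEB** (symmetric Chebotarev, lower bound for the Dirichlet density, finite partial
sums).  `φ` is a surjection of `G_ℚ` onto a finite group factoring through a finite level, `C` a
subset stable under conjugation and inversion, `P` a set of numbers containing all primes `p ∉ T`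
having a Frobenius element with image in `C`. -/
def StmtCheb : Prop :=
  ∀ (X : Type) [Group X] [Finite X] (φ : GQ →* X), Function.Surjective φ →
    GaloisFactorsThroughFiniteLevel φ →
    ∀ C : Set X, (∀ x y : X, x ∈ C → y * x * y⁻¹ ∈ C) → (∀ x : X, x ∈ C → x⁻¹ ∈ C) →
    ∀ (T : Finset ℕ) (P : Set ℕ),
      (∀ p : ℕ, p.Prime → p ∉ T → ∀ A : ValuationSubring (AlgebraicClosure ℚ), A.LiesOverPrime p →
        ∀ σ : GQ, A.IsFrobeniusAt σ p → φ σ ∈ C → p ∈ P) →
    ∀ δ : ℝ, δ * (Nat.card X : ℝ) < (Nat.card C : ℝ) →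
      ∃ s₀ : ℝ, 1 < s₀ ∧ ∀ s : ℝ, 1 < s → s < s₀ →
        ∃ S : Finset ℕ, (∀ p ∈ S, p.Prime ∧ p ∈ P) ∧
          δ * Real.log (1 / (s - 1)) ≤ ∑ p ∈ S, (p : ℝ) ^ (-s)

/-! ### Eigensystems mod `ℓ` -/

/-- The kernel property delivered by `Lib/QuadRep`: an element which does not change any
characteristic polynomial is trivial. -/
def KerProp {G κ V : Type*} [Group G] [Field κ] [AddCommGroup V] [Module κ V]
    [Module.Finite κ V] (ρ : G →* Module.End κ V) : Prop :=
  ∀ h : G, (∀ g : G, LinearMap.charpoly (ρ (g * h)) = LinearMap.charpoly (ρ g)) → ρ h = 1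

/-- **Contract WT1**: for good weight one data and almost all `ℓ`, the reduction of the
eigensystem along any ring homomorphism `φ` from `Zbar` to a field of characteristic `ℓ` occurs in
`S₂(Γ₁(N ℓ))`, with `T_p ↦ a_p` and `p ⟨p⟩ ↦ ε(p)`. -/
def StmtWT1 : Prop :=
  ∀ (N : ℕ) [NeZero N] (D : W1Data N), D.Good →
    ∃ B : Finset ℕ, ∀ (ℓ : ℕ) [NeZero (N * ℓ)], ℓ.Prime → ℓ ∉ B →
      ∀ (κ : Type) [Field κ] [CharP κ ℓ] (φ : Zbar →+* κ),
        ∃ θ : HK.Idx (N * ℓ) → κ, HK.Occurs (N * ℓ) 2 θ ∧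
          ∀ p : HK.GoodPrime (N * ℓ), ∃ a e : Zbar,
            (a : ℂ) = qCoeff D.f p.1 ∧ (e : ℂ) = D.ε ((p.1 : ℕ) : ZMod N) ∧
            θ (Sum.inl p) = φ a ∧ ((p.1 : ℕ) : κ) * θ (Sum.inr p.unit) = φ e

/-- **Contract MODL2** (Eichler-Shimura for `Γ₁(M)`, mod `ℓ`): an eigensystem occurring in
`S₂(Γ₁(M))` with values in an algebraically closed field of characteristic `ℓ ≥ 5` has a two
dimensional Galois representation, unramified outside `M ℓ`, with
`charpoly (Frob_p) = X² - θ(T_p) X + p θ(⟨p⟩)`. -/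
def StmtModL2 : Prop :=
  ∀ (M ℓ : ℕ) [NeZero M], ℓ.Prime → 5 ≤ ℓ →
    ∀ (κ : Type) [Field κ] [IsAlgClosed κ] [CharP κ ℓ] (θ : HK.Idx M → κ), HK.Occurs M 2 θ →
      ∃ ρ : ResidualGaloisRep κ, KerProp ρ.ρ ∧
        ∀ p : HK.GoodPrime M, p.1 ≠ ℓ →
          ρ.IsUnramifiedAt p.1 ∧
          ∀ A : ValuationSubring (AlgebraicClosure ℚ), A.LiesOverPrime p.1 →
            ∀ σ : GQ, A.IsFrobeniusAt σ p.1 →
              LinearMap.charpoly (ρ.ρ σ) =
                X ^ 2 - C (θ (Sum.inl p)) * X + C (((p.1 : ℕ) : κ) * θ (Sum.inr p.unit))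

/-- The conclusion of S48. -/
def Conclusion {N : ℕ} [NeZero N] (D : W1Data N) : Prop :=
  ∃ ρ : GQ →* GL (Fin 2) ℂ, GaloisFactorsThroughFiniteLevel ρ ∧
    (Deformation.matrixRepresentation ρ).IsIrreducible ∧
    ∀ p : ℕ, p.Prime → ¬ p ∣ N →
      ∀ A : ValuationSubring (AlgebraicClosure ℚ), A.LiesOverPrime p →
        (∀ σ ∈ A.inertiaSubgroupIn ℚ, ρ σ = 1) ∧
        ∀ σ : GQ, A.IsFrobeniusAt σ p →
          ((ρ σ : GL (Fin 2) ℂ) : Matrix (Fin 2) (Fin 2) ℂ).trace = qCoeff D.f p ∧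
          ((ρ σ : GL (Fin 2) ℂ) : Matrix (Fin 2) (Fin 2) ℂ).det = D.ε (p : ZMod N)

end Fermat.Agent.S48
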