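import Fermat.Agent.S48.Final.Main
import Fermat.Agent.S48.Alg.Main
import Fermat.Agent.S48.WT1.Contract
import Fermat.Agent.Lib.Cheb.Adapter
import Fermat.Agent.S48.ModL.Main

/-!
# S48 : reduction of the theorem of Deligne-Serre to the geometric contract `StmtGeo`

All the other contracts (`StmtAlg`, `StmtCheb`, `StmtWT1`, `StmtGeo → StmtModL2`) and the final
assembly are proved.
-/

set_option autoImplicit false

namespace Fermat.Agent.S48

theorem conclusion_of_geo (hG : StmtGeo) {N : ℕ} [NeZero N] (D : W1Data N) : Conclusion D :=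
  Final.conclusion Alg.stmtAlg Lib.Cheb.stmtCheb WT1.stmtWT1 (ModL.stmtModL2_of_geo hG) D

end Fermat.Agent.S48
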